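import Fermat.Agent.CAR.XT.Int
import Fermat.Agent.CAR.NS.Inc
import Fermat.Agent.CAR.BK.ConcKR
import Fermat.Agent.CAR.TH1.Pl.Theta

/-!
# CAR / XT / Inc : [INC] for the concrete chart rings `BC = B_t ⊆ EC`, `BF = B_t ⊆ FK`

`xTabC` : the table `NS.XTab` of the four modular units in `BC`;
`incC`, `incF` : the field `inc` of `CAR.Main.GeoE` for `E = EC A (M' q²)`, `E = FK A (M' q²)`, from the discreteness datum `NS.Disc3` ([D3]).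
-/

set_option autoImplicit false

open ModularCurve AlgebraicCurve

noncomputable section

namespace Fermat.Agent.CAR.XT

open Fermat.Agent.GR Fermat.Agent.GAL Fermat.Agent.GAL.KL Fermat.Agent.GAL.KLC Fermat.Agent.S24
open Fermat.Agent.S28 Fermat.Agent.GR.HeckeField Fermat.Agent.TOR Fermat.Agent.TOR.GB
open Fermat.Agent.CAR.FQ2V Fermat.Agent.CAR.FQ2E Fermat.Agent.CAR.FQ2C Fermat.Agent.CAR.ON
open Fermat.Agent.CAR.TH1 Fermat.Agent.CAR.XW Fermat.Agent.CAR.BK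

variable {M' q : ℕ} [NeZero M'] [NeZero q]

/-- (X3) in the notation of `BKP`. -/
theorem isInt_XF_t1C (hq : q.Prime) (hqM : ¬ q ∣ M') : IsInt Qb (BKP.t1C M' q) (XF M' q) :=
  isInt_XF hq hqM

theorem isInt_XF_inv_t1C (hq : q.Prime) (hqM : ¬ q ∣ M') : IsInt Qb (BKP.t1C M' q) (XF M' q)⁻¹ :=
  isInt_XF_inv hq hqM

theorem NX_pos (M' : ℕ) : 0 < NX M' := Nat.mul_pos (by norm_num) (XSeries_e0_pos M')

/-- the value of `π = q` in the chart ring. -/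
theorem v3_natCast_Bu (A : ValuationSubring Qb) (ζ : Qbˣ) (E : Subfield (FN (M' * q * q)))
    (u : FN (M' * q * q)) (i₀ : (ZMod q)ˣ) (j : ON.Idx Unit) :
    v3 E (vC M' q A ζ) i₀ j (((q : ℕ) : Bu Qb E (vC M' q A ζ) u) : E) = vq A q := by
  rw [v3_apply, coe_natCast_Bu, vC_q]

variable (hM : AdmLevel M') (hq : q.Prime) (hqM : ¬ q ∣ M') (A : ValuationSubring Qb)
  (hA : A.LiesOverPrime q) (ζ : Qbˣ) (hζ : IsPrimitiveRoot ζ q)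

/-- **the table of the modular units in `BC`.** -/
theorem xTabC (i₀ : (ZMod q)ˣ) :
    NS.XTab (BC M' q A ζ) (v3 (EC A (M' * q * q)) (vC M' q A ζ) i₀) oo (md ()) zr
      ((q : ℕ) : BC M' q A ζ) (NX M') q
      (XoB hM hq hqM A hA ζ hζ (isInt_XF_inv_t1C hq hqM))
      (Xo'B hM hq hqM A hA ζ hζ (isInt_XF_t1C hq hqM))
      (XzB hM hq hqM A hA ζ (isInt_XF_t1C hq hqM))
      (Xz'B hM hq hqM A hA ζ (isInt_XF_inv_t1C hq hqM)) where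
  N0 := NX_pos M'
  q2 := hq.two_le
  mulo := XoB_mul hM hq hqM A hA ζ hζ _ _
  mulz := XzB_mul hM hq hqM A hA ζ _ _
  Xo_o := by
    rw [v3_natCast_Bu]
    exact vC_oo_Xo hq hqM A ζ
  Xo_m := vC_md_Xo hq hqM A hA ζ hζ i₀
  Xo_z := vC_zr_Xo hq hqM A ζ
  Xz_o := vC_oo_Xz A ζ
  Xz_m := vC_md_Xz A ζ i₀
  Xz_z := by
    rw [v3_natCast_Bu]
    exact vC_zr_Xz hq hqM A ζ
  cm := vC_md_Xo_sub_Xz hq hqM A hA ζ hζ i₀
  co := vC_oo_Xo'_sub hq A hA ζ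

include hM hq hqM hA hζ in
/-- **[INC] for `BC`** (field `inc` of `CAR.Main.GeoE` with `E = EC A (M' q²)`). -/
theorem incC (i₀ : (ZMod q)ˣ) {νt : BC M' q A ζ} {e : ℕ}
    (D : NS.Disc3 (BC M' q A ζ) (v3 (EC A (M' * q * q)) (vC M' q A ζ) i₀) oo (md ()) zr
      ((q : ℕ) : BC M' q A ζ) νt e) :
    ∀ P : Ideal (BC M' q A ζ), P.IsMaximal → ∀ i j, i ≠ j →
      pK Qb (EC A (M' * q * q)) (vC M' q A ζ) (FQ2C.tC M' q) i₀ i ≤ P →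
      pK Qb (EC A (M' * q * q)) (vC M' q A ζ) (FQ2C.tC M' q) i₀ j ≤ P →
      ∀ l, pK Qb (EC A (M' * q * q)) (vC M' q A ζ) (FQ2C.tC M' q) i₀ l ≤ P :=
  NS.inc (vertC A ζ hM hq hqM hA hζ i₀) (natCast_Bu_ne_zero A ζ hq _ _)
    (krC A ζ hM hq hqM hA hζ i₀) D (xTabC hM hq hqM A hA ζ hζ i₀)

include hM hq hqM hA hζ in
/-- **[INC] for `BF`** (field `inc` of `CAR.Main.Geo`). -/
theorem incF (i₀ : (ZMod q)ˣ) {νt : BF M' q A ζ} {e : ℕ}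
    (D : NS.Disc3 (BF M' q A ζ) (v3 (NRM.Inst.FK A (M' * q * q)) (vC M' q A ζ) i₀) oo (md ()) zr
      ((q : ℕ) : BF M' q A ζ) νt e) :
    ∀ P : Ideal (BF M' q A ζ), P.IsMaximal → ∀ i j, i ≠ j →
      pK Qb (NRM.Inst.FK A (M' * q * q)) (vC M' q A ζ) (FQ2C.tC M' q) i₀ i ≤ P →
      pK Qb (NRM.Inst.FK A (M' * q * q)) (vC M' q A ζ) (FQ2C.tC M' q) i₀ j ≤ P →
      ∀ l, pK Qb (NRM.Inst.FK A (M' * q * q)) (vC M' q A ζ) (FQ2C.tC M' q) i₀ l ≤ P := by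
  have key : ∀ (E : Subfield (FN (M' * q * q))), EC A (M' * q * q) = E →
      ∀ {νt : Bu Qb E (vC M' q A ζ) (FQ2C.tC M' q)} {e : ℕ},
      NS.Disc3 (Bu Qb E (vC M' q A ζ) (FQ2C.tC M' q)) (v3 E (vC M' q A ζ) i₀) oo (md ()) zr
        ((q : ℕ) : Bu Qb E (vC M' q A ζ) (FQ2C.tC M' q)) νt e →
      ∀ P : Ideal (Bu Qb E (vC M' q A ζ) (FQ2C.tC M' q)), P.IsMaximal → ∀ i j, i ≠ j →
        pK Qb E (vC M' q A ζ) (FQ2C.tC M' q) i₀ i ≤ P →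
        pK Qb E (vC M' q A ζ) (FQ2C.tC M' q) i₀ j ≤ P →
        ∀ l, pK Qb E (vC M' q A ζ) (FQ2C.tC M' q) i₀ l ≤ P := by
    rintro E rfl νt e D
    exact incC hM hq hqM A hA ζ hζ i₀ D
  exact key _ (EC_eq_FK A (M' * q * q)) D

end Fermat.Agent.CAR.XT
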