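import Fermat.Agent.CAR.XT.Table
import Fermat.Agent.CAR.BK.Conc

/-!
# CAR / XT / Int : integrality of the four elements over `ℚ̄[t]`, membership in the chart ring `BC`, congruences for [INC]

The ONLY non formal input: `hX : IsInt Qb (t1C M' q) X`, `hX' : IsInt Qb (t1C M' q) X⁻¹`   (`(X3)` of block [X] = TH1).
-/

set_option autoImplicit false

open ModularCurve AlgebraicCurve

noncomputable section

namespace Fermat.Agent.CAR.XT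

open Fermat.Agent.GR Fermat.Agent.GAL Fermat.Agent.GAL.KL Fermat.Agent.GAL.KLC Fermat.Agent.S24
open Fermat.Agent.S28 Fermat.Agent.GR.HeckeField Fermat.Agent.TOR Fermat.Agent.TOR.GB
open Fermat.Agent.CAR.FQ2V Fermat.Agent.CAR.FQ2E Fermat.Agent.CAR.FQ2C Fermat.Agent.CAR.ON
open Fermat.Agent.CAR.TH1 Fermat.Agent.CAR.XW Fermat.Agent.CAR.BK

variable {M' q : ℕ} [NeZero M'] [NeZero q]

/-! ## level `M' q` -/

theorem isInt_wq_XF (hq : q.Prime) (hqM : ¬ q ∣ M')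
    (hX' : IsInt Qb (BKP.t1C M' q) (XF M' q)⁻¹) : IsInt Qb (BKP.t1C M' q) (wq M' q (XF M' q)) := by
  rw [wq_XF_eq hq hqM]
  exact (IsInt.algebraMap _).mul hX'

theorem isInt_wq_XF_inv (hq : q.Prime) (hqM : ¬ q ∣ M')
    (hX : IsInt Qb (BKP.t1C M' q) (XF M' q)) : IsInt Qb (BKP.t1C M' q) (wq M' q (XF M' q))⁻¹ := by
  have hq0 : (q : Qb) ^ NX M' ≠ 0 := pow_ne_zero _ (by exact_mod_cast hq.ne_zero)
  have h : (wq M' q (XF M' q))⁻¹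
      = algebraMap Qb (FN (M' * q)) (((q : Qb) ^ NX M')⁻¹) * XF M' q := by
    rw [wq_XF_eq hq hqM, mul_inv, inv_inv, map_inv₀]
  rw [h]
  exact (IsInt.algebraMap _).mul hX

/-! ## level `M' q²` -/

section

variable (hM : AdmLevel M') (hq : q.Prime) (hqM : ¬ q ∣ M') (A : ValuationSubring Qb)
  (hA : A.LiesOverPrime q) (hX : IsInt Qb (BKP.t1C M' q) (XF M' q))
  (hX' : IsInt Qb (BKP.t1C M' q) (XF M' q)⁻¹)

include hM hq hqM hA

include hX in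
theorem isInt_Xz : IsInt Qb (FQ2C.tC M' q) (Xz M' q) := BKP.isInt_alp hM hq hqM A hA hX

include hX in
theorem isInt_Xo' : IsInt Qb (FQ2C.tC M' q) (Xo' M' q) := BKP.isInt_bet hM hq hqM A hA hX

include hX' in
theorem isInt_Xz' : IsInt Qb (FQ2C.tC M' q) (Xz' M' q) :=
  BKP.isInt_alp hM hq hqM A hA (isInt_wq_XF hq hqM hX')

include hX' in
theorem isInt_Xo : IsInt Qb (FQ2C.tC M' q) (Xo M' q) :=
  BKP.isInt_bet hM hq hqM A hA (isInt_wq_XF hq hqM hX')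

include hX' in
theorem isInt_Xz_inv : IsInt Qb (FQ2C.tC M' q) (Xz M' q)⁻¹ := by
  rw [Xz, ← map_inv₀]
  exact BKP.isInt_alp hM hq hqM A hA hX'

include hX' in
theorem isInt_Xo'_inv : IsInt Qb (FQ2C.tC M' q) (Xo' M' q)⁻¹ := by
  rw [Xo', ← map_inv₀]
  exact BKP.isInt_bet hM hq hqM A hA hX'

include hX in
theorem isInt_Xo_inv : IsInt Qb (FQ2C.tC M' q) (Xo M' q)⁻¹ := by
  rw [Xo, ← map_inv₀]
  exact BKP.isInt_bet hM hq hqM A hA (isInt_wq_XF_inv hq hqM hX)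

include hX in
theorem isInt_Xz'_inv : IsInt Qb (FQ2C.tC M' q) (Xz' M' q)⁻¹ := by
  rw [Xz', ← map_inv₀]
  exact BKP.isInt_alp hM hq hqM A hA (isInt_wq_XF_inv hq hqM hX)

end

/-! ## all the valuations are `≤ 1` -/

section

variable (hq : q.Prime) (hqM : ¬ q ∣ M') (A : ValuationSubring Qb) (hA : A.LiesOverPrime q)
  (ζ : Qbˣ) (hζ : IsPrimitiveRoot ζ q)

include hA in
theorem vq_pow_le_one (N : ℕ) : vq A q ^ N ≤ 1 := pow_le_one' (vq_lt_one A hA).le N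

include hq hqM hA in
theorem vC_Xz_le (i : FQ2V.Idx q) : vC M' q A ζ i (Xz M' q) ≤ 1 := by
  rcases i with _ | _ | c
  · exact (vC_oo_Xz A ζ).le
  · exact (vC_zr_Xz hq hqM A ζ).le.trans (vq_pow_le_one A hA _)
  · exact (vC_md_Xz A ζ c).le

include hq hqM hA in
theorem vC_Xz'_le (i : FQ2V.Idx q) : vC M' q A ζ i (Xz' M' q) ≤ 1 := by
  rcases i with _ | _ | c
  · exact (vC_oo_Xz' hq hqM A ζ).le.trans (vq_pow_le_one A hA _)
  · exact (vC_zr_Xz' hq hqM A hA ζ).le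
  · exact (vC_md_Xz' hq hqM A ζ c).le.trans (vq_pow_le_one A hA _)

include hq hqM hA hζ in
theorem vC_Xo_le (i : FQ2V.Idx q) : vC M' q A ζ i (Xo M' q) ≤ 1 := by
  rcases i with _ | _ | c
  · exact (vC_oo_Xo hq hqM A ζ).le.trans (vq_pow_le_one A hA _)
  · exact (vC_zr_Xo hq hqM A ζ).le
  · exact (vC_md_Xo hq hqM A hA ζ hζ c).le

include hq hqM hA hζ in
theorem vC_Xo'_le (i : FQ2V.Idx q) : vC M' q A ζ i (Xo' M' q) ≤ 1 := by
  rcases i with _ | _ | c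
  · exact (vC_oo_Xo' hq A hA ζ).le
  · exact (vC_zr_Xo' hq hqM A ζ).le.trans (vq_pow_le_one A hA _)
  · exact (vC_md_Xo' hq hqM A hA ζ hζ c).le.trans (vq_pow_le_one A hA _)

/-! ## the congruences of [INC] -/

include hq hqM hA hζ in
/-- `X_∞ ≡ X_0` along the middle branches. -/
theorem vC_md_Xo_sub_Xz (c : (ZMod q)ˣ) : vC M' q A ζ (md c) (Xo M' q - Xz M' q) < 1 :=
  (rd_md_Xo hq hqM A hA ζ hζ c).sub_lt (isRed_C A ζ (md c)) (rd_md_Xz A ζ c)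

include hq hA in
/-- `X_∞' ≡ X_0^q` along `∞`. -/
theorem vC_oo_Xo'_sub : vC M' q A ζ oo (Xo' M' q - Xz M' q ^ q) < 1 :=
  (rd_oo_Xo' hq A hA ζ).sub_lt (isRed_C A ζ oo) ((rd_oo_Xz A ζ).pow q)

include hq hqM hA in
/-- `X_0' ≡ X_∞^q` along `0`. -/
theorem vC_zr_Xz'_sub : vC M' q A ζ zr (Xz' M' q - Xo M' q ^ q) < 1 :=
  (rd_zr_Xz' hq hqM A hA ζ).sub_lt (isRed_C A ζ zr) ((rd_zr_Xo hq hqM A ζ).pow q)

end

/-! ## the four elements of the chart ring `BC` -/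

section

variable (hM : AdmLevel M') (hq : q.Prime) (hqM : ¬ q ∣ M') (A : ValuationSubring Qb)
  (hA : A.LiesOverPrime q) (ζ : Qbˣ) (hζ : IsPrimitiveRoot ζ q)
  (hX : IsInt Qb (BKP.t1C M' q) (XF M' q)) (hX' : IsInt Qb (BKP.t1C M' q) (XF M' q)⁻¹)

/-- `X_0 ∈ B`. -/
def XzB : BC M' q A ζ :=
  ⟨⟨Xz M' q, Xz_mem_EC A⟩, isInt_Xz hM hq hqM A hA hX, vC_Xz_le hq hqM A hA ζ⟩

/-- `X_0' ∈ B`. -/
def Xz'B : BC M' q A ζ :=
  ⟨⟨Xz' M' q, Xz'_mem_EC hq hqM A⟩, isInt_Xz' hM hq hqM A hA hX', vC_Xz'_le hq hqM A hA ζ⟩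

/-- `X_∞ ∈ B`. -/
def XoB : BC M' q A ζ :=
  ⟨⟨Xo M' q, Xo_mem_EC hq hqM A⟩, isInt_Xo hM hq hqM A hA hX', vC_Xo_le hq hqM A hA ζ hζ⟩

/-- `X_∞' ∈ B`. -/
def Xo'B : BC M' q A ζ :=
  ⟨⟨Xo' M' q, Xo'_mem_EC A⟩, isInt_Xo' hM hq hqM A hA hX, vC_Xo'_le hq hqM A hA ζ hζ⟩

@[simp] theorem coe_XzB : (((XzB hM hq hqM A hA ζ hX : BC M' q A ζ) : EC A (M' * q * q)) :
    FN (M' * q * q)) = Xz M' q := rfl

@[simp] theorem coe_Xz'B : (((Xz'B hM hq hqM A hA ζ hX' : BC M' q A ζ) : EC A (M' * q * q)) :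
    FN (M' * q * q)) = Xz' M' q := rfl

@[simp] theorem coe_XoB : (((XoB hM hq hqM A hA ζ hζ hX' : BC M' q A ζ) : EC A (M' * q * q)) :
    FN (M' * q * q)) = Xo M' q := rfl

@[simp] theorem coe_Xo'B : (((Xo'B hM hq hqM A hA ζ hζ hX : BC M' q A ζ) : EC A (M' * q * q)) :
    FN (M' * q * q)) = Xo' M' q := rfl

/-- `X_∞ X_∞' = q^N` in `B`. -/
theorem XoB_mul : XoB hM hq hqM A hA ζ hζ hX' * Xo'B hM hq hqM A hA ζ hζ hX
    = (q : BC M' q A ζ) ^ NX M' := by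
  apply Subtype.ext
  apply Subtype.ext
  show Xo M' q * Xo' M' q = _
  rw [Xo_mul_Xo' hq hqM, map_pow, map_natCast]
  simp

/-- `X_0 X_0' = q^N` in `B`. -/
theorem XzB_mul : XzB hM hq hqM A hA ζ hX * Xz'B hM hq hqM A hA ζ hX'
    = (q : BC M' q A ζ) ^ NX M' := by
  apply Subtype.ext
  apply Subtype.ext
  show Xz M' q * Xz' M' q = _
  rw [Xz_mul_Xz' hq hqM, map_pow, map_natCast]
  simp

end

end Fermat.Agent.CAR.XT
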