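import Fermat.Agent.CAR.XW.Main
import Fermat.Agent.CAR.FQ2C.Main
import Fermat.Agent.CAR.BKP.Conc
import Fermat.Agent.CAR.BK.ConcRat

/-!
# CAR / XT : the `X`-table at level `q² M'`

`X = XF M' q = G'(τ)/G'(qτ) ∈ FN (M' q)`, `N = 12 e₀`, `w_q X · X = q^N`, `H = red X = XR k M' q`.
Four elements of `F = FN (M' q²)`:
`Xz = a1 X`, `Xz' = a1 (w_q X)`, `Xo = b1 (w_q X)`, `Xo' = b1 X`    (`a1 = alp (M' q) q`, `b1 = bet (M' q) q`).

              ∞          md c       0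
    Xz        H          H          |q|^N
    Xz'       |q|^N      |q|^N      H^q
    Xo        |q|^N      H          H
    Xo'       H^q        |q|^N      |q|^N
-/

set_option autoImplicit false

open ModularCurve AlgebraicCurve

noncomputable section

namespace Fermat.Agent.CAR.XT

open Fermat.Agent.GR Fermat.Agent.GAL Fermat.Agent.GAL.KL Fermat.Agent.GAL.KLC Fermat.Agent.S24
open Fermat.Agent.S28 Fermat.Agent.GR.HeckeField Fermat.Agent.TOR Fermat.Agent.TOR.GB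
open Fermat.Agent.CAR.FQ2V Fermat.Agent.CAR.FQ2E Fermat.Agent.CAR.FQ2C Fermat.Agent.CAR.ON
open Fermat.Agent.CAR.TH1 Fermat.Agent.CAR.XW Fermat.Agent.CAR.BK

variable (M' q : ℕ) [NeZero M'] [NeZero q]

/-- `a1 X`. -/
def Xz : FN (M' * q * q) := alp (M' * q) q (XF M' q)
/-- `a1 (w_q X)`. -/
def Xz' : FN (M' * q * q) := alp (M' * q) q (wq M' q (XF M' q))
/-- `b1 (w_q X)`. -/
def Xo : FN (M' * q * q) := bet (M' * q) q (wq M' q (XF M' q))
/-- `b1 X`. -/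
def Xo' : FN (M' * q * q) := bet (M' * q) q (XF M' q)

/-- the weight. -/
abbrev NX : ℕ := 12 * e0 M'

/-- the reduction of `X`. -/
abbrev HX (A : ValuationSubring Qb) : LaurentSeries (kA A) := XR (kA A) M' q

variable {M' q}

/-! ## level `M' q` -/

theorem hasRed_XF (A : ValuationSubring Qb) :
    HasRed A ((XF M' q : FN (M' * q)) : LaurentSeries Qb) (HX M' q A) :=
  hasRed_int A (XU M' q : LaurentSeries ℤ)

theorem rd_XF (A : ValuationSubring Qb) : T1.Rd (rho A (M' * q)) (XF M' q) (HX M' q A) :=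
  (T1C.rd_iff _ A).2 (hasRed_XF A)

theorem HX_ne_zero (A : ValuationSubring Qb) : HX M' q A ≠ 0 :=
  (uR (kA A) (XU M' q)).ne_zero

theorem XF_ne_zero : XF M' q ≠ 0 := by
  intro h
  have h1 : ((XF M' q : FN (M' * q)) : LaurentSeries Qb) = 0 := by rw [h]; rfl
  exact (uR Qb (XU M' q)).ne_zero h1

theorem galF_XF (σ : GQ) : galF (M' * q) σ (XF M' q) = XF M' q := by
  apply Subtype.ext
  rw [coe_galF, coe_XF, XR, galS, coeffMap_coeffMap]
  have e : ((σ : Qb →+* Qb)).comp (Int.castRingHom Qb) = Int.castRingHom Qb := Subsingleton.elim _ _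
  rw [e]

theorem XF_mem_EC (A : ValuationSubring Qb) : XF M' q ∈ EC A (M' * q) :=
  (mem_EC_iff_galF A).2 fun τ _ => galF_XF τ

theorem wq_XF_mem_EC (hq : q.Prime) (hqM : ¬ q ∣ M') (A : ValuationSubring Qb) :
    wq M' q (XF M' q) ∈ EC A (M' * q) :=
  (mem_EC_iff_galF A).2 fun τ _ => by rw [← wq_galF hq hqM, galF_XF]

/-- `V H = H^q`. -/
theorem qExpand_HX (hq : q.Prime) (A : ValuationSubring Qb) (hA : A.LiesOverPrime q) :
    qExpand (kA A) q (HX M' q A) = HX M' q A ^ q := by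
  have := charP_residueField hq hA
  have := Fact.mk hq
  rw [pow_char_eq_qExpand q (HX M' q A)]
  have e : (frobenius (kA A) q).comp (Int.castRingHom (kA A)) = Int.castRingHom (kA A) :=
    Subsingleton.elim _ _
  show _ = qExpand (kA A) q (coeffMap (frobenius (kA A) q)
    (coeffMap (Int.castRingHom (kA A)) (XU M' q : LaurentSeries ℤ)))
  rw [coeffMap_coeffMap, e]
  rfl

theorem wq_XF_eq (hq : q.Prime) (hqM : ¬ q ∣ M') :
    wq M' q (XF M' q) = algebraMap Qb (FN (M' * q)) ((q : Qb) ^ NX M') * (XF M' q)⁻¹ := by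
  rw [← wq_XF hq hqM, mul_assoc, mul_inv_cancel₀ XF_ne_zero, mul_one]

theorem v1_XF (A : ValuationSubring Qb) : v1 M' q A (XF M' q) = 1 :=
  vOf_eq_one_of_hasRed A _ (hasRed_XF A) (HX_ne_zero A)

/-- `|w_q X| = |q|^N`. -/
theorem v1_wq_XF (hq : q.Prime) (hqM : ¬ q ∣ M') (A : ValuationSubring Qb) :
    v1 M' q A (wq M' q (XF M' q)) = vU A (cU (q : Qb)) ^ NX M' := by
  rw [wq_XF_eq hq hqM, map_mul, map_inv₀, v1_XF, inv_one, mul_one, v1, vOf_algebraMap, map_pow,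
    map_pow]

/-! ## products, rationality -/

theorem Xo_mul_Xo' (hq : q.Prime) (hqM : ¬ q ∣ M') :
    Xo M' q * Xo' M' q = algebraMap Qb (FN (M' * q * q)) ((q : Qb) ^ NX M') := by
  rw [Xo, Xo', ← map_mul, wq_XF hq hqM, AlgHom.commutes]

theorem Xz_mul_Xz' (hq : q.Prime) (hqM : ¬ q ∣ M') :
    Xz M' q * Xz' M' q = algebraMap Qb (FN (M' * q * q)) ((q : Qb) ^ NX M') := by
  rw [Xz, Xz', ← map_mul, mul_comm (XF M' q), wq_XF hq hqM, AlgHom.commutes]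

theorem Xz_mem_EC (A : ValuationSubring Qb) : Xz M' q ∈ EC A (M' * q * q) :=
  alp_mem_EC A (XF_mem_EC A)

theorem Xo'_mem_EC (A : ValuationSubring Qb) : Xo' M' q ∈ EC A (M' * q * q) :=
  bet_mem_EC A (XF_mem_EC A)

theorem Xz'_mem_EC (hq : q.Prime) (hqM : ¬ q ∣ M') (A : ValuationSubring Qb) :
    Xz' M' q ∈ EC A (M' * q * q) :=
  alp_mem_EC A (wq_XF_mem_EC hq hqM A)

theorem Xo_mem_EC (hq : q.Prime) (hqM : ¬ q ∣ M') (A : ValuationSubring Qb) :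
    Xo M' q ∈ EC A (M' * q * q) :=
  bet_mem_EC A (wq_XF_mem_EC hq hqM A)

/-! ## the table -/

section Tab

variable (hq : q.Prime) (hqM : ¬ q ∣ M') (A : ValuationSubring Qb) (hA : A.LiesOverPrime q)
  (ζ : Qbˣ) (hζ : IsPrimitiveRoot ζ q)

/-- `|q|` in the common value group. -/
abbrev vq (A : ValuationSubring Qb) (q : ℕ) : ΓU A := vU A (cU (q : Qb))

theorem rd_oo_Xz : T1.Rd (rhoC M' q A ζ oo) (Xz M' q) (HX M' q A) := rd_oo_a1 A ζ (rd_XF A)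

theorem rd_md_Xz (c : (ZMod q)ˣ) : T1.Rd (rhoC M' q A ζ (md c)) (Xz M' q) (HX M' q A) :=
  rd_md_a1 A ζ c (rd_XF A)

include hq hqM in
theorem vC_zr_Xz : vC M' q A ζ zr (Xz M' q) = vq A q ^ NX M' := by
  rw [Xz, vC_zr_a1 A ζ hq hqM, v1_wq_XF hq hqM]

include hq hqM in
theorem vC_oo_Xz' : vC M' q A ζ oo (Xz' M' q) = vq A q ^ NX M' := by
  rw [Xz', vC_oo_a1, v1_wq_XF hq hqM]

include hq hqM in
theorem vC_md_Xz' (c : (ZMod q)ˣ) : vC M' q A ζ (md c) (Xz' M' q) = vq A q ^ NX M' := by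
  rw [Xz', vC_md_a1, v1_wq_XF hq hqM]

include hq hqM hA in
theorem rd_zr_Xz' : T1.Rd (rhoC M' q A ζ zr) (Xz' M' q) (HX M' q A ^ q) := by
  rw [← qExpand_HX hq A hA]
  refine rd_zr_a1 A ζ hq hqM ?_
  rw [wq_wq hq hqM]
  exact rd_XF A

include hq hqM in
theorem vC_oo_Xo : vC M' q A ζ oo (Xo M' q) = vq A q ^ NX M' := by
  rw [Xo, vC_oo_b1, v1_wq_XF hq hqM]

include hq hqM hA hζ in
theorem rd_md_Xo (c : (ZMod q)ˣ) : T1.Rd (rhoC M' q A ζ (md c)) (Xo M' q) (HX M' q A) := by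
  refine rd_md_b1 A ζ hq hqM hA hζ c ?_
  rw [wq_wq hq hqM]
  exact rd_XF A

include hq hqM in
theorem rd_zr_Xo : T1.Rd (rhoC M' q A ζ zr) (Xo M' q) (HX M' q A) := by
  refine rd_zr_b1 A ζ hq hqM ?_
  rw [wq_wq hq hqM]
  exact rd_XF A

include hq hA in
theorem rd_oo_Xo' : T1.Rd (rhoC M' q A ζ oo) (Xo' M' q) (HX M' q A ^ q) := by
  rw [← qExpand_HX hq A hA]
  exact rd_oo_b1 A ζ (rd_XF A)

include hq hqM hA hζ in
theorem vC_md_Xo' (c : (ZMod q)ˣ) : vC M' q A ζ (md c) (Xo' M' q) = vq A q ^ NX M' := by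
  rw [Xo', vC_md_b1 A ζ hq hqM hA hζ, v1_wq_XF hq hqM]

include hq hqM in
theorem vC_zr_Xo' : vC M' q A ζ zr (Xo' M' q) = vq A q ^ NX M' := by
  rw [Xo', vC_zr_b1 A ζ hq hqM, v1_wq_XF hq hqM]

/-- `|q| = vC i q`. -/
theorem vC_q (i : FQ2V.Idx q) :
    vC M' q A ζ i (algebraMap Qb (FN (M' * q * q)) (q : Qb)) = vq A q :=
  vOf_algebraMap A _ _

include hA in
theorem vq_lt_one : vq A q < 1 := by
  have h := vU_prime_lt_one A hA
  rwa [← map_natCast cU] at h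

/-- the values `= 1`. -/
theorem vC_oo_Xz : vC M' q A ζ oo (Xz M' q) = 1 :=
  (rd_oo_Xz A ζ).v_eq_one (isRed_C A ζ oo) (HX_ne_zero A)

theorem vC_md_Xz (c : (ZMod q)ˣ) : vC M' q A ζ (md c) (Xz M' q) = 1 :=
  (rd_md_Xz A ζ c).v_eq_one (isRed_C A ζ (md c)) (HX_ne_zero A)

include hq hqM hA hζ in
theorem vC_md_Xo (c : (ZMod q)ˣ) : vC M' q A ζ (md c) (Xo M' q) = 1 :=
  (rd_md_Xo hq hqM A hA ζ hζ c).v_eq_one (isRed_C A ζ (md c)) (HX_ne_zero A)

include hq hqM in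
theorem vC_zr_Xo : vC M' q A ζ zr (Xo M' q) = 1 :=
  (rd_zr_Xo hq hqM A ζ).v_eq_one (isRed_C A ζ zr) (HX_ne_zero A)

include hq hA in
theorem vC_oo_Xo' : vC M' q A ζ oo (Xo' M' q) = 1 :=
  (rd_oo_Xo' hq A hA ζ).v_eq_one (isRed_C A ζ oo) (pow_ne_zero _ (HX_ne_zero A))

include hq hqM hA in
theorem vC_zr_Xz' : vC M' q A ζ zr (Xz' M' q) = 1 :=
  (rd_zr_Xz' hq hqM A hA ζ).v_eq_one (isRed_C A ζ zr) (pow_ne_zero _ (HX_ne_zero A))

end Tab

end Fermat.Agent.CAR.XT
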